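import Fermat.Agent.H94.ORD.JacInterfaces
import Fermat.Agent.H21.Ord.DiscBlocks

/-!
# P-ORD block (G-B), rows 1138-1140: the local blocks in helper94's form, UNCONDITIONALLY (helper26)

Adapters from helper21's `Fermat.Agent.H21.Ord.DiscBlocks` (`DiscHyp.taylorRed`,
`DiscHyp.taylorApprox`, `DiscHyp.rootApprox`, all proved there) to the exact `Prop`s of
`Fermat.Agent.H94.ORD.JacInterfaces`:

* `taylorRedC_final : TaylorRedC`;
* `taylorApproxC_final : TaylorApproxC`;
* `rootApproxC_final : RootApproxC`.
-/

set_option autoImplicit false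
set_option synthInstance.maxHeartbeats 400000
set_option maxHeartbeats 1600000
set_option linter.style.haveILetI false
set_option linter.unusedSectionVars false

noncomputable section

open AlgebraicCurve ModularCurve Fermat.Agent.H27.ESD

namespace Fermat.Agent.H26.ORD

open Fermat.Agent.H10.FF Fermat.Agent.H72.FF Fermat.Agent.H18.ORD Fermat.Agent.H92.ORD
  Fermat.Agent.H94.FF

section Adapt

variable {N p : ℕ} {A : ValuationSubring Qb} {Fk : Type} [Field Fk] [Algebra (kRes A) Fk]
  {X : Type} {V : Subring (FLb N)} {red : V →+* Fk} {r : Place Qb (FLb N) → X}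
  {pt : Place (kRes A) Fk → X} {smooth : Place (kRes A) Fk → Prop}

/-- helper94's `CompSetup` gives helper21's `DiscHyp` -/
theorem discHyp_of_compSetup (hS : Fermat.Agent.H94.ORD.CompSetup N p A V red r pt smooth) :
    Fermat.Agent.H21.Ord.DiscHyp A N V red r pt smooth :=
  ⟨hS.comp, hS.inv, hS.degL⟩

/-- helper94's unramified coordinates (at a smooth point) are helper21's -/
theorem isUnrCoordC_of_smooth {Q : Place (kRes A) Fk} (hsm : smooth Q)
    {P : Place Qb (FLb N)} {t : V}
    (ht : Fermat.Agent.H94.ORD.IsUnrCoordC A N V red r pt Q P t) :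
    Fermat.Agent.H21.Ord.IsUnrCoordC A N V red r pt smooth Q P t :=
  ⟨hsm, ht.sp, ht.unrP, ht.unrT, ht.zero, ht.simple, ht.nopole⟩

end Adapt

/-- **[C-TAYLOR]**, unconditionally. -/
theorem taylorRedC_final : Fermat.Agent.H94.ORD.TaylorRedC := by
  intro N p A Fk instF instA X V red r pt smooth hS Q hsm P t ht y hyU hynp M
  exact (discHyp_of_compSetup hS).taylorRed Q P t (isUnrCoordC_of_smooth hsm ht) y hyU hynp M

/-- **[C-TAPPROX]**, unconditionally. -/
theorem taylorApproxC_final : Fermat.Agent.H94.ORD.TaylorApproxC := by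
  intro N p A Fk instF instA X V red r pt smooth hS Q hsm P t ht y hyU hynp S instS n x hx pts
    τ v hpts hτ hv happ
  exact (discHyp_of_compSetup hS).taylorApprox hS.prime hS.liesOver Q P t
    (isUnrCoordC_of_smooth hsm ht) y hyU hynp S n x hx pts τ v hpts hτ hv happ

/-- **[C-ROOT]**, unconditionally. -/
theorem rootApproxC_final : Fermat.Agent.H94.ORD.RootApproxC := by
  intro N p A Fk instF instA X V red r pt smooth hS Q hsm P t ht d y hyU hynp S instS n x hx κ hκ
    hsimple pts τ hpts hτ hF
  exact (discHyp_of_compSetup hS).rootApprox hS.prime hS.liesOver Q P t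
    (isUnrCoordC_of_smooth hsm ht) d y hyU hynp S n x hx κ hκ hsimple pts τ hpts hτ hF

end Fermat.Agent.H26.ORD
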