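import Fermat.Agent.H18.ORD.NodalDefs

/-!
# P-ORD, block B1-LATT (abstract part, helper26)

The field `lattice` (M5) of `Fermat.Agent.H18.ORD.NodalRvHyp` (sup-norm lattice property for the
PAIR of Gauss valuations) follows from the lattice property (G3) of ONE of the two valuations:

* `LatticeG3Oo G` : (G3) at `V_∞` (shape of `Fermat.Agent.H66.GaussLatticeStatement`, with the
  reduction `G.redOo`);
* `SingleLatticeOo G` : a non-constant `f` has a normalisation `α f + β ∈ V_∞` with non-constant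
  reduction;
* `singleLattice_of_G3 : LatticeG3Oo G → SingleLatticeOo G`;
* `pairLattice_of_single`, `pairLattice_of_G3` : the field `lattice` VERBATIM.

Proof of the pair form: let `g = α f + β ∈ V_∞` with non-constant reduction.  If `g ∈ V_0` we are
done.  If not, `g = c u` with `u` a unit of `V_0` (`norm_zero`) and `c ∉ A`, so `c⁻¹ ∈ 𝔪_A` and
`u = c⁻¹ g ∈ V_∞ ∩ V_0` has the reduction pair `(0, red_0 u)`, `red_0 u ≠ 0`.
-/

set_option autoImplicit false
set_option linter.unusedSectionVars false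

noncomputable section

open AlgebraicCurve ModularCurve

namespace Fermat.Agent.H26.ORD

open Fermat.Agent.H72.FF Fermat.Agent.H18.ORD

variable {N : ℕ} {A : ValuationSubring Qb} {Foo F0 : Type} [Field Foo] [Field F0]
  [Algebra (kRes A) Foo] [Algebra (kRes A) F0] {ι : Type}

/-- the one-valuation lattice property at `V_∞`, for the planes `⟨1, f⟩` -/
def SingleLatticeOo (G : NodalData N A Foo F0 ι) : Prop :=
  ∀ f : FLb N, (∀ c : Qb, f ≠ algebraMap Qb (FLb N) c) →
    ∃ (α β : Qb) (h : algebraMap Qb (FLb N) α * f + algebraMap Qb (FLb N) β ∈ G.Voo), α ≠ 0 ∧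
      ¬ ∃ κ : kRes A, G.redOo ⟨_, h⟩ = algebraMap (kRes A) Foo κ

/-- (G3) at `V_∞` : a finite-dimensional space of functions contains `dim` elements of `V_∞`
with linearly independent reductions -/
def LatticeG3Oo (G : NodalData N A Foo F0 ι) : Prop :=
  ∀ (V : Submodule Qb (FLb N)), FiniteDimensional Qb V →
    ∃ u : Fin (Module.finrank Qb V) → G.Voo, (∀ i, ((u i : G.Voo) : FLb N) ∈ V) ∧
      LinearIndependent (kRes A) (fun i => G.redOo (u i))

/-- the field `lattice` of `NodalRvHyp`, as a `Prop` -/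
def PairLattice (G : NodalData N A Foo F0 ι) : Prop :=
  ∀ f : FLb N, (∀ c : Qb, f ≠ algebraMap Qb (FLb N) c) →
    ∃ (α β : Qb) (h : algebraMap Qb (FLb N) α * f + algebraMap Qb (FLb N) β ∈ G.Voo)
      (h0 : algebraMap Qb (FLb N) α * f + algebraMap Qb (FLb N) β ∈ G.V0), α ≠ 0 ∧
      ¬ ∃ κ : kRes A, G.redOo ⟨_, h⟩ = algebraMap (kRes A) Foo κ ∧
        G.red0 ⟨_, h0⟩ = algebraMap (kRes A) F0 κ

theorem pl_residue_eq_zero {a : A} (h : ¬ IsUnit a) : IsLocalRing.residue A a = 0 := by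
  rw [IsLocalRing.residue_eq_zero_iff, IsLocalRing.mem_maximalIdeal, mem_nonunits_iff]
  exact h

/-- if `c ∉ A` then `c⁻¹` is a nonunit of `A` -/
theorem pl_inv_nonunit {c : Qb} (hc : c ∉ A) :
    ∃ h : c⁻¹ ∈ A, ¬ IsUnit (⟨c⁻¹, h⟩ : A) := by
  have hci : c⁻¹ ∈ A := (A.mem_or_inv_mem c).resolve_left hc
  refine ⟨hci, fun hu => hc ?_⟩
  obtain ⟨v, hv⟩ := hu.exists_right_inv
  have h1 : c⁻¹ * (v : Qb) = 1 := congrArg Subtype.val hv
  have hc0 : c ≠ 0 := fun h0 => hc (h0 ▸ A.zero_mem)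
  have hva : (v : Qb) = c := by
    have := congrArg (fun x => c * x) h1
    simp only [← mul_assoc, mul_inv_cancel₀ hc0, one_mul, mul_one] at this
    exact this
  exact hva ▸ v.2

/-- **(M5) from the one-valuation lattice property.** -/
theorem pairLattice_of_single (G : NodalData N A Foo F0 ι)
    (const_oo : ∀ c : Qb, c ∈ A → algebraMap Qb (FLb N) c ∈ G.Voo)
    (const_zero : ∀ c : Qb, c ∈ A → algebraMap Qb (FLb N) c ∈ G.V0)
    (red_const_oo : ∀ (c : A) (h : algebraMap Qb (FLb N) (c : Qb) ∈ G.Voo),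
      G.redOo ⟨_, h⟩ = algebraMap (kRes A) Foo (IsLocalRing.residue A c))
    (norm_zero : ∀ φ : FLb N, φ ≠ 0 → ∃ (c : Qb) (u : G.V0), c ≠ 0 ∧ G.red0 u ≠ 0 ∧
      φ = algebraMap Qb (FLb N) c * (u : FLb N))
    (hL : SingleLatticeOo G) : PairLattice G := by
  intro f hf
  obtain ⟨α, β, h, hα, hnc⟩ := hL f hf
  by_cases h0 : algebraMap Qb (FLb N) α * f + algebraMap Qb (FLb N) β ∈ G.V0
  · exact ⟨α, β, h, h0, hα, fun ⟨κ, h1, _⟩ => hnc ⟨κ, h1⟩⟩
  · have hg0 : algebraMap Qb (FLb N) α * f + algebraMap Qb (FLb N) β ≠ 0 := fun h' =>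
      h0 (h' ▸ G.V0.zero_mem)
    obtain ⟨c, u, hc, hu, hgu⟩ := norm_zero _ hg0
    have hcA : c ∉ A := fun hcA => h0 (hgu ▸ G.V0.mul_mem (const_zero c hcA) u.2)
    obtain ⟨hciA, hnu⟩ := pl_inv_nonunit hcA
    -- `u = c⁻¹ g`
    have hu1 : (u : FLb N) = algebraMap Qb (FLb N) c⁻¹ *
        (algebraMap Qb (FLb N) α * f + algebraMap Qb (FLb N) β) := by
      rw [hgu, ← mul_assoc, ← map_mul, inv_mul_cancel₀ hc, map_one, one_mul]
    have hu2 : algebraMap Qb (FLb N) (c⁻¹ * α) * f + algebraMap Qb (FLb N) (c⁻¹ * β)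
        = (u : FLb N) := by
      rw [hu1, map_mul, map_mul]
      ring
    have hmemOo : algebraMap Qb (FLb N) (c⁻¹ * α) * f + algebraMap Qb (FLb N) (c⁻¹ * β)
        ∈ G.Voo := by
      rw [hu2, hu1]
      exact G.Voo.mul_mem (const_oo _ hciA) h
    have hmem0 : algebraMap Qb (FLb N) (c⁻¹ * α) * f + algebraMap Qb (FLb N) (c⁻¹ * β)
        ∈ G.V0 := by
      rw [hu2]
      exact u.2
    refine ⟨c⁻¹ * α, c⁻¹ * β, hmemOo, hmem0, mul_ne_zero (inv_ne_zero hc) hα, ?_⟩
    rintro ⟨κ, h1, h2⟩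
    -- the reduction at `∞` vanishes
    have e1 : G.redOo ⟨_, hmemOo⟩ = 0 := by
      have hprod : (⟨_, hmemOo⟩ : G.Voo)
          = (⟨algebraMap Qb (FLb N) c⁻¹, const_oo _ hciA⟩ : G.Voo) * ⟨_, h⟩ := by
        apply Subtype.ext
        show algebraMap Qb (FLb N) (c⁻¹ * α) * f + algebraMap Qb (FLb N) (c⁻¹ * β) = _
        rw [hu2, hu1]
        rfl
      rw [hprod, map_mul, red_const_oo ⟨c⁻¹, hciA⟩ (const_oo _ hciA), pl_residue_eq_zero hnu,
        map_zero, zero_mul]
    -- the reduction at `0` does not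
    have e2 : G.red0 ⟨_, hmem0⟩ ≠ 0 := by
      have : (⟨_, hmem0⟩ : G.V0) = u := Subtype.ext hu2
      rw [this]
      exact hu
    have hκ : κ = 0 := by
      have h3 : algebraMap (kRes A) Foo κ = 0 := h1.symm.trans e1
      exact (map_eq_zero (algebraMap (kRes A) Foo)).mp h3
    apply e2
    rw [h2, hκ, map_zero]

/-- **The one-valuation lattice property from (G3).** -/
theorem singleLattice_of_G3 (G : NodalData N A Foo F0 ι)
    (const_oo : ∀ c : Qb, algebraMap Qb (FLb N) c ∈ G.Voo → c ∈ A)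
    (red_const_oo : ∀ (c : A) (h : algebraMap Qb (FLb N) (c : Qb) ∈ G.Voo),
      G.redOo ⟨_, h⟩ = algebraMap (kRes A) Foo (IsLocalRing.residue A c))
    (hG : LatticeG3Oo G) : SingleLatticeOo G := by
  intro f hf
  -- the plane `⟨1, f⟩`
  have hli : LinearIndependent Qb ![(1 : FLb N), f] := by
    rw [LinearIndependent.pair_iff]
    intro s t hst
    have ht : t = 0 := by
      by_contra ht
      apply hf (-(s / t))
      have h1 : algebraMap Qb (FLb N) s + algebraMap Qb (FLb N) t * f = 0 := by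
        rw [Algebra.smul_def, Algebra.smul_def, mul_one] at hst
        exact hst
      have ht' : algebraMap Qb (FLb N) t ≠ 0 := (map_ne_zero _).mpr ht
      rw [map_neg, map_div₀]
      field_simp
      linear_combination h1
    refine ⟨?_, ht⟩
    rw [ht, zero_smul, add_zero, Algebra.smul_def, mul_one] at hst
    exact (map_eq_zero (algebraMap Qb (FLb N))).mp hst
  have hrank : Module.finrank Qb (Submodule.span Qb (Set.range ![(1 : FLb N), f])) = 2 := by
    rw [finrank_span_eq_card hli]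
    rfl
  have hfd : FiniteDimensional Qb (Submodule.span Qb (Set.range ![(1 : FLb N), f])) :=
    FiniteDimensional.span_of_finite Qb (Set.finite_range _)
  obtain ⟨u, hu, hind⟩ := hG (Submodule.span Qb (Set.range ![(1 : FLb N), f])) hfd
  -- one of the reductions is not constant
  have hex : ∃ i, ¬ ∃ κ : kRes A, G.redOo (u i) = algebraMap (kRes A) Foo κ := by
    by_contra hall
    push Not at hall
    have hinj : Function.Injective (Fin.cast hrank.symm) := Fin.cast_injective _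
    have h2 := hind.comp (Fin.cast hrank.symm) hinj
    obtain ⟨κ0, hκ0⟩ := hall (Fin.cast hrank.symm 0)
    obtain ⟨κ1, hκ1⟩ := hall (Fin.cast hrank.symm 1)
    have h3 := (Fintype.linearIndependent_iff.mp h2)
      (fun j => if j = 0 then κ1 else -κ0) (by
        rw [Fin.sum_univ_two]
        simp only [Function.comp_apply, if_true, Fin.reduceEq, if_false, hκ0, hκ1,
          Algebra.smul_def, map_neg]
        ring)
    have hκ1z : κ1 = 0 := by simpa using h3 0
    have hκ0z : κ0 = 0 := by simpa using h3 1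
    have h4 : G.redOo (u (Fin.cast hrank.symm 0)) = 0 := by rw [hκ0, hκ0z, map_zero]
    exact hind.ne_zero (Fin.cast hrank.symm 0) h4
  obtain ⟨i, hi⟩ := hex
  -- write `u i = a + b f`
  have hmem := hu i
  rw [Matrix.range_cons_cons_empty, Submodule.mem_span_pair] at hmem
  obtain ⟨a, b, hab⟩ := hmem
  have hab' : algebraMap Qb (FLb N) b * f + algebraMap Qb (FLb N) a = ((u i : G.Voo) : FLb N) := by
    rw [← hab, Algebra.smul_def, Algebra.smul_def, mul_one, add_comm]
  have hb : b ≠ 0 := by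
    rintro rfl
    apply hi
    have hc : ((u i : G.Voo) : FLb N) = algebraMap Qb (FLb N) a := by
      rw [← hab', map_zero, zero_mul, zero_add]
    have haA : a ∈ A := const_oo a (hc ▸ (u i).2)
    refine ⟨IsLocalRing.residue A ⟨a, haA⟩, ?_⟩
    have : u i = ⟨algebraMap Qb (FLb N) a, hc ▸ (u i).2⟩ := Subtype.ext hc
    rw [this]
    exact red_const_oo ⟨a, haA⟩ _
  have hmemV : algebraMap Qb (FLb N) b * f + algebraMap Qb (FLb N) a ∈ G.Voo := by
    rw [hab']
    exact (u i).2
  refine ⟨b, a, hmemV, hb, ?_⟩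
  have : (⟨_, hmemV⟩ : G.Voo) = u i := Subtype.ext hab'
  rw [this]
  exact hi

/-- **(M5) from (G3) at `V_∞`** : the field `lattice` of `NodalRvHyp`. -/
theorem pairLattice_of_G3 (G : NodalData N A Foo F0 ι)
    (const_oo : ∀ c : Qb, algebraMap Qb (FLb N) c ∈ G.Voo ↔ c ∈ A)
    (const_zero : ∀ c : Qb, c ∈ A → algebraMap Qb (FLb N) c ∈ G.V0)
    (red_const_oo : ∀ (c : A) (h : algebraMap Qb (FLb N) (c : Qb) ∈ G.Voo),
      G.redOo ⟨_, h⟩ = algebraMap (kRes A) Foo (IsLocalRing.residue A c))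
    (norm_zero : ∀ φ : FLb N, φ ≠ 0 → ∃ (c : Qb) (u : G.V0), c ≠ 0 ∧ G.red0 u ≠ 0 ∧
      φ = algebraMap Qb (FLb N) c * (u : FLb N))
    (hG : LatticeG3Oo G) : PairLattice G :=
  pairLattice_of_single G (fun c hc => (const_oo c).mpr hc) const_zero red_const_oo norm_zero
    (singleLattice_of_G3 G (fun c hc => (const_oo c).mp hc) red_const_oo hG)

end Fermat.Agent.H26.ORD
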