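import Fermat.Agent.H26.ORD.NmCrtLocal

/-!
# P-ORD, block B1-LIFT, [CRT] (helper26) : the glued ring at the `ℚ̄`-level

Findings #569 (helper92).  `F = FLb (M p)`, `B̄(y) = nmChart (M p) A y` (`y = j` or `j⁻¹`),
`O₂ = V_∞ ∩ V_0`, `r₁ = red_∞`, `r₂ = red_0` (`nmO2`, `nmR1`, `nmR2`).

* `NmMaxCentreStatement` **[MAXC]** (properness of the chart): every maximal ideal of `B̄(y)`
  containing `𝔪_A` is contained in `{f | f(P) ∈ 𝔪_A}` for a place `P` of `F` with `y(P) ∈ A`
  (i.e. it is the centre of `P` in the chart `y`);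
* `NmCrtStatement` **[CRT]** : a pair `(x, x') ∈ F_∞ × F_0` which is regular at every place of
  `F_∞`, `F_0` over the centre of a place `P` with `y(P) ∈ A`, and glued at the nodes among these
  centres, is `(r₁ f, r₂ f)` for some `f ∈ B̄(y)`;
* `nmCrt_of` : [CRT] from the soft facts, [DVR] (both components), [XY] and [MAXC].

Proof: the ideal `I = {s ∈ B̄ | s · (x, x') ∈ (r₁, r₂)(B̄)}` contains the constants of `𝔪_A`; if it
were proper it would lie in a maximal ideal, which is the centre of a place `P` by [MAXC]; but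
the pair is locally liftable at the centre of `P` (`crtLocal_own`, `crtLocal_chart`), i.e. `I`
contains an element `s` with `s(P)` a unit.
-/

set_option autoImplicit false
set_option linter.unusedSectionVars false
set_option linter.unusedVariables false
set_option linter.style.haveILetI false
set_option synthInstance.maxHeartbeats 400000
set_option maxHeartbeats 1600000

noncomputable section

open AlgebraicCurve ModularCurve

namespace Fermat.Agent.H26.ORD

open Fermat.Agent.H72.FF Fermat.Agent.H18.ORD Fermat.Agent.H66 Fermat.Agent.H84.ORD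

/-- **[MAXC]** every maximal ideal of the chart `B̄(y)` containing `𝔪_A` is (contained in) the
centre of a place `P` with `y(P) ∈ A`. -/
def NmMaxCentreStatement (M p : ℕ) [NeZero M] [NeZero p] : Prop :=
  ∀ (A : ValuationSubring Qb) (_ : NmSetup M p A) (y : FLb (M * p)),
    (y = nmJ (M * p) ∨ y = (nmJ (M * p))⁻¹) →
    ∀ S : Ideal ↥(nmChart (M * p) A y), S.IsMaximal →
      (∀ s : ↥(nmChart (M * p) A y),
        (∃ c ∈ A.nonunits, (s : FLb (M * p)) = algebraMap Qb (FLb (M * p)) c) → s ∈ S) →
      ∃ P : Place Qb (FLb (M * p)), y ∈ nmInt A P ∧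
        ∀ s : ↥(nmChart (M * p) A y), s ∈ S → (s : FLb (M * p)) ∈ nmMax A P

/-- **[CRT]** the glued ring at the `ℚ̄`-level, chart `y`. -/
def NmCrtStatement (M p : ℕ) [NeZero M] [NeZero p] : Prop :=
  ∀ (A : ValuationSubring Qb) (h : NmSetup M p A) (y : FLb (M * p)),
    (y = nmJ (M * p) ∨ y = (nmJ (M * p))⁻¹) →
    ∀ x x' : NmF (M * p) A,
      (∀ P : Place Qb (FLb (M * p)), y ∈ nmInt A P →
        ∀ Q, NmSpecOo M p A (nmCentre A P) Q → x ∈ Q.toValuationSubring) →
      (∀ P : Place Qb (FLb (M * p)), y ∈ nmInt A P →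
        ∀ Q', NmSpecZero M p h.cop A (nmCentre A P) Q' → x' ∈ Q'.toValuationSubring) →
      (∀ P : Place Qb (FLb (M * p)), y ∈ nmInt A P →
        ∀ Q Q', NmSpecOo M p A (nmCentre A P) Q → NmSpecZero M p h.cop A (nmCentre A P) Q' →
          ∃ κ : kRes A,
            x - algebraMap (kRes A) (NmF (M * p) A) κ ∈ Q.toValuationSubring.nonunits ∧
            x' - algebraMap (kRes A) (NmF (M * p) A) κ ∈ Q'.toValuationSubring.nonunits) →
      ∃ f : nmO2 M p h.cop A, (f : FLb (M * p)) ∈ nmChart (M * p) A y ∧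
        nmR1 M p h.cop A f = x ∧ nmR2 M p h.cop A f = x'

section Main

variable {M p : ℕ} [NeZero M] [NeZero p] {A : ValuationSubring Qb}

/-- the colon ideal `{s ∈ B̄(y) | s · (x, x') ∈ (r₁, r₂)(B̄(y))}` -/
def crtIdeal (H : NmBase M p A) (y : FLb (M * p))
    (hle : nmChart (M * p) A y ≤ nmO2 M p H.setup.cop A) (x x' : NmF (M * p) A) :
    Ideal ↥(nmChart (M * p) A y) where
  carrier := {s | ∃ f : ↥(nmChart (M * p) A y),
    nmR1 M p H.setup.cop A (Subring.inclusion hle f) =
      nmR1 M p H.setup.cop A (Subring.inclusion hle s) * x ∧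
    nmR2 M p H.setup.cop A (Subring.inclusion hle f) =
      nmR2 M p H.setup.cop A (Subring.inclusion hle s) * x'}
  add_mem' := by
    rintro s t ⟨f, hf1, hf2⟩ ⟨g, hg1, hg2⟩
    refine ⟨f + g, ?_, ?_⟩
    · rw [map_add, map_add, map_add, map_add, hf1, hg1]
      ring
    · rw [map_add, map_add, map_add, map_add, hf2, hg2]
      ring
  zero_mem' := ⟨0, by rw [map_zero, map_zero, zero_mul], by rw [map_zero, map_zero, zero_mul]⟩
  smul_mem' := by
    rintro c s ⟨f, hf1, hf2⟩
    refine ⟨c * f, ?_, ?_⟩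
    · rw [smul_eq_mul, map_mul, map_mul, map_mul, map_mul, hf1]
      ring
    · rw [smul_eq_mul, map_mul, map_mul, map_mul, map_mul, hf2]
      ring

theorem mem_crtIdeal (H : NmBase M p A) (y : FLb (M * p))
    (hle : nmChart (M * p) A y ≤ nmO2 M p H.setup.cop A) (x x' : NmF (M * p) A)
    (s : ↥(nmChart (M * p) A y)) :
    s ∈ crtIdeal H y hle x x' ↔ ∃ f : ↥(nmChart (M * p) A y),
      nmR1 M p H.setup.cop A (Subring.inclusion hle f) =
        nmR1 M p H.setup.cop A (Subring.inclusion hle s) * x ∧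
      nmR2 M p H.setup.cop A (Subring.inclusion hle f) =
        nmR2 M p H.setup.cop A (Subring.inclusion hle s) * x' := Iff.rfl

/-- **[CRT]** at one valuation ring `A`, from local liftability and [MAXC]. -/
theorem crt_of_local (H : NmBase M p A) (hMax : NmMaxCentreStatement M p) (y : FLb (M * p))
    (hy : y = nmJ (M * p) ∨ y = (nmJ (M * p))⁻¹) (x x' : NmF (M * p) A)
    (hloc : ∀ P : Place Qb (FLb (M * p)), y ∈ nmInt A P →
      CrtLocal M p H.setup.cop A y P x x') :
    ∃ f : nmO2 M p H.setup.cop A, (f : FLb (M * p)) ∈ nmChart (M * p) A y ∧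
      nmR1 M p H.setup.cop A f = x ∧ nmR2 M p H.setup.cop A f = x' := by
  have hle : nmChart (M * p) A y ≤ nmO2 M p H.setup.cop A := fun f hf =>
    crt_chart_le_O2 H hy hf
  by_cases htop : crtIdeal H y hle x x' = ⊤
  · have h1 : (1 : ↥(nmChart (M * p) A y)) ∈ crtIdeal H y hle x x' := by
      rw [htop]
      exact Submodule.mem_top
    obtain ⟨f, hf1, hf2⟩ := (mem_crtIdeal H y hle x x' 1).mp h1
    rw [map_one, map_one, one_mul] at hf1 hf2
    exact ⟨Subring.inclusion hle f, f.2, hf1, hf2⟩
  · exfalso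
    obtain ⟨S, hSmax, hIS⟩ := Ideal.exists_le_maximal _ htop
    have hconst : ∀ s : ↥(nmChart (M * p) A y),
        (∃ c ∈ A.nonunits, (s : FLb (M * p)) = algebraMap Qb (FLb (M * p)) c) → s ∈ S := by
      rintro s ⟨c, hc, hsc⟩
      apply hIS
      refine (mem_crtIdeal H y hle x x' s).mpr ⟨0, ?_, ?_⟩
      · have e : nmR1 M p H.setup.cop A (Subring.inclusion hle s) = 0 := by
          have e1 : (Subring.inclusion hle s : nmO2 M p H.setup.cop A) =
              ⟨algebraMap Qb (FLb (M * p)) c,
                crt_const_mem_O2 H ⟨c, ValuationSubring.nonunits_subset hc⟩⟩ :=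
            Subtype.ext hsc
          rw [e1]
          exact H.oo.red_const_nonunit hc
        rw [e, map_zero, map_zero, zero_mul]
      · have e : nmR2 M p H.setup.cop A (Subring.inclusion hle s) = 0 := by
          have e1 : (Subring.inclusion hle s : nmO2 M p H.setup.cop A) =
              ⟨algebraMap Qb (FLb (M * p)) c,
                crt_const_mem_O2 H ⟨c, ValuationSubring.nonunits_subset hc⟩⟩ :=
            Subtype.ext hsc
          rw [e1]
          exact H.zero.red_const_nonunit hc
        rw [e, map_zero, map_zero, zero_mul]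
    obtain ⟨P, hyP, hSP⟩ := hMax A H.setup y hy S hSmax hconst
    obtain ⟨s, f, hsB, hfB, hsm, h1, h2⟩ := hloc P hyP
    apply hsm
    refine hSP ⟨s, hsB⟩ (hIS ((mem_crtIdeal H y hle x x' ⟨s, hsB⟩).mpr ⟨⟨f, hfB⟩, ?_, ?_⟩))
    · exact h1
    · exact h2

/-- **[CRT]** from the soft facts, [DVR] on both components, [XY] and [MAXC]. -/
theorem nmCrt_of (hS : NmSoftStatement M p) (hDo : NmDvrOoStatement M p)
    (hDz : NmDvrZeroStatement M p) (hX : NmCrossStatement M p)
    (hMax : NmMaxCentreStatement M p) : NmCrtStatement M p := by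
  intro A h y hy x x' hreg1 hreg2 hglue
  have H : NmBase M p A := nmBase_of_soft hS h
  exact crt_of_local H hMax y hy x x' fun P hyP =>
    crtLocal_chart H P hy hyP x x'
      (crtLocal_own H hDo hDz hX P x x' (hreg1 P hyP) (hreg2 P hyP) (hglue P hyP))

end Main

end Fermat.Agent.H26.ORD
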