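import Fermat.Agent.H26.ORD.NmCrtOverlap

/-!
# P-ORD, block B1-LIFT, [CRT] part 1 (helper26) : local liftability at a centre

`F = FLb (M p)`, `O₂ = V_∞ ∩ V_0` (`nmO2`), `r₁ = red_∞`, `r₂ = red_0` on `O₂` (`nmR1`, `nmR2`),
`B̄(y) = nmChart (M p) A y`, `y = j` or `j⁻¹`.

`CrtLocal y P x x'` : the pair `(x, x') ∈ F_∞ × F_0` is locally liftable at the centre of the place
`P` in the chart `y` : there are `s, f ∈ B̄(y)`, `s(P)` a unit of `A`, with
`(r₁ f, r₂ f) = (r₁ s · x, r₂ s · x')`.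

* `crtLocal_own` : local liftability in the chart of `P`, from [DVR] (both components) and [XY],
  for a pair which is regular at the places over the centre of `P` and glued there;
* `crtLocal_chart` : transfer to the other chart on the overlap.
-/

set_option autoImplicit false
set_option linter.unusedSectionVars false
set_option linter.unusedVariables false
set_option linter.style.haveILetI false
set_option synthInstance.maxHeartbeats 400000
set_option maxHeartbeats 1600000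

noncomputable section

open AlgebraicCurve ModularCurve

namespace Fermat.Agent.H26.ORD

open Fermat.Agent.H72.FF Fermat.Agent.H18.ORD Fermat.Agent.H66 Fermat.Agent.H84.ORD

/-! ### generalities on places -/

section Place

variable {K F : Type*} [Field K] [Field F] [Algebra K F] (Q : Place K F)

theorem crt_ne_zero_of_ord_one {u : F} (hu : Q.ord u = 1) : u ≠ 0 := by
  rintro rfl
  rw [Place.ord_zero] at hu
  exact zero_ne_one hu

/-- division of an element of the maximal ideal by a uniformiser -/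
theorem crt_div_mem {u w : F} (hu : Q.ord u = 1) (hw : w ∈ Q.toValuationSubring.nonunits) :
    w / u ∈ Q.toValuationSubring := by
  rcases (Fermat.Agent.H18.ORD.nb_mem_nonunits_iff Q w).mp hw with h0 | h1
  · rw [h0, zero_div]
    exact Q.toValuationSubring.zero_mem
  · have hw0 : w ≠ 0 := by
      rintro rfl
      rw [Place.ord_zero] at h1
      omega
    have hu0 : u ≠ 0 := crt_ne_zero_of_ord_one Q hu
    refine Fermat.Agent.H23.mem_of_ord_nonneg Q ?_
    rw [div_eq_mul_inv, Q.ord_mul hw0 (inv_ne_zero hu0), Q.ord_inv, hu]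
    omega

end Place

/-! ### `O₂ = V_∞ ∩ V_0` -/

section Defs

variable (M p : ℕ) [NeZero M] [NeZero p] (hcop : Nat.Coprime M p) (A : ValuationSubring Qb)

/-- `O₂ = V_∞ ∩ V_0` -/
def nmO2 : Subring (FLb (M * p)) := gaussOBar (M * p) A ⊓ nmV0 M p hcop A

/-- `red_∞` on `O₂` -/
def nmR1 : nmO2 M p hcop A →+* NmF (M * p) A :=
  (nmRedOo (M * p) A).comp (Subring.inclusion inf_le_left)

/-- `red_0` on `O₂` -/
def nmR2 : nmO2 M p hcop A →+* NmF (M * p) A :=
  (nmRed0 M p hcop A).comp (Subring.inclusion inf_le_right)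

theorem nmR1_mk (f : FLb (M * p)) (h : f ∈ nmO2 M p hcop A) :
    nmR1 M p hcop A ⟨f, h⟩ = nmRedOo (M * p) A ⟨f, h.1⟩ := rfl

theorem nmR2_mk (f : FLb (M * p)) (h : f ∈ nmO2 M p hcop A) :
    nmR2 M p hcop A ⟨f, h⟩ = nmRed0 M p hcop A ⟨f, h.2⟩ := rfl

/-- local liftability of the pair `(x, x')` at the centre of `P` in the chart `y` -/
def CrtLocal (y : FLb (M * p)) (P : Place Qb (FLb (M * p))) (x x' : NmF (M * p) A) : Prop :=
  ∃ s f : nmO2 M p hcop A, (s : FLb (M * p)) ∈ nmChart (M * p) A y ∧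
    (f : FLb (M * p)) ∈ nmChart (M * p) A y ∧ (s : FLb (M * p)) ∉ nmMax A P ∧
    nmR1 M p hcop A f = nmR1 M p hcop A s * x ∧ nmR2 M p hcop A f = nmR2 M p hcop A s * x'

end Defs

section Local

variable {M p : ℕ} [NeZero M] [NeZero p] {A : ValuationSubring Qb}

/-- the charts lie in `O₂` -/
theorem crt_chart_le_O2 (H : NmBase M p A) {y : FLb (M * p)}
    (hy : y = nmJ (M * p) ∨ y = (nmJ (M * p))⁻¹) {f : FLb (M * p)}
    (hf : f ∈ nmChart (M * p) A y) : f ∈ nmO2 M p H.setup.cop A := by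
  constructor
  · refine nmChart_le A H.oo.val (fun c hc => H.oo.const_mem c hc) ?_ hf
    rcases hy with rfl | rfl
    · exact H.oo.j_mem
    · exact H.oo.jinv_mem
  · refine nmChart_le A H.zero.val (fun c hc => H.zero.const_mem c hc) ?_ hf
    rcases hy with rfl | rfl
    · exact H.zero.j_mem
    · exact H.zero.jinv_mem

theorem nmY_eq_or (P : Place Qb (FLb (M * p))) :
    nmY A P = nmJ (M * p) ∨ nmY A P = (nmJ (M * p))⁻¹ := by
  classical
  unfold nmY
  split_ifs
  · exact Or.inl rfl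
  · exact Or.inr rfl

/-- the chart of `P` lies in `O₂` -/
theorem crt_ownChart_le_O2 (H : NmBase M p A) (P : Place Qb (FLb (M * p)))
    {f : FLb (M * p)} (hf : f ∈ nmChart (M * p) A (nmY A P)) : f ∈ nmO2 M p H.setup.cop A :=
  crt_chart_le_O2 H (nmY_eq_or P) hf

/-- elements of a chart `y` with `y(P) ∈ A` have values in `A` at `P` -/
theorem crt_chart_le_nmComp (H : NmBase M p A) (P : Place Qb (FLb (M * p))) {y : FLb (M * p)}
    (hy : y ∈ nmInt A P) {f : FLb (M * p)} (hf : f ∈ nmChart (M * p) A y) :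
    f ∈ nmComp A P (H.deg P) :=
  nmChart_le A (nmComp A P (H.deg P)) (fun _ hc => algebraMap_mem_nmComp A P (H.deg P) hc) hy hf

/-- the complement of `nmMax` in `{f | f(P) ∈ A}` is multiplicative -/
theorem crt_mul_not_mem_nmMax (H : NmBase M p A) (P : Place Qb (FLb (M * p)))
    {s t : FLb (M * p)} (hs : s ∈ nmComp A P (H.deg P)) (ht : t ∈ nmComp A P (H.deg P))
    (hsm : s ∉ nmMax A P) (htm : t ∉ nmMax A P) : s * t ∉ nmMax A P := by
  rw [← mem_nonunits_nmComp_iff A P (H.deg P), ValuationSubring.mem_nonunits_iff, not_lt] at hsm htm ⊢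
  have h1 : (nmComp A P (H.deg P)).valuation s = 1 :=
    le_antisymm ((ValuationSubring.valuation_le_one_iff _ _).2 hs) hsm
  have h2 : (nmComp A P (H.deg P)).valuation t = 1 :=
    le_antisymm ((ValuationSubring.valuation_le_one_iff _ _).2 ht) htm
  rw [map_mul, h1, h2, mul_one]

theorem crt_pow_not_mem_nmMax (H : NmBase M p A) (P : Place Qb (FLb (M * p)))
    {s : FLb (M * p)} (hs : s ∈ nmComp A P (H.deg P)) (hsm : s ∉ nmMax A P) (n : ℕ) :
    s ^ n ∉ nmMax A P := by
  induction n with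
  | zero =>
    rw [pow_zero, ← mem_nonunits_nmComp_iff A P (H.deg P), ValuationSubring.mem_nonunits_iff,
      map_one]
    exact lt_irrefl _
  | succ n ih =>
    rw [pow_succ]
    exact crt_mul_not_mem_nmMax H P (pow_mem hs n) hs ih hsm

/-- the reduction of a constant of `A` on `O₂` -/
theorem crt_nmR1_const (H : NmBase M p A) (c : A)
    (h : algebraMap Qb (FLb (M * p)) (c : Qb) ∈ nmO2 M p H.setup.cop A) :
    nmR1 M p H.setup.cop A ⟨_, h⟩ =
      algebraMap (kRes A) (NmF (M * p) A) (IsLocalRing.residue A c) :=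
  H.oo.red_const c h.1

theorem crt_nmR2_const (H : NmBase M p A) (c : A)
    (h : algebraMap Qb (FLb (M * p)) (c : Qb) ∈ nmO2 M p H.setup.cop A) :
    nmR2 M p H.setup.cop A ⟨_, h⟩ =
      algebraMap (kRes A) (NmF (M * p) A) (IsLocalRing.residue A c) :=
  H.zero.red_const c h.2

theorem crt_const_mem_O2 (H : NmBase M p A) (c : A) :
    algebraMap Qb (FLb (M * p)) (c : Qb) ∈ nmO2 M p H.setup.cop A :=
  ⟨H.oo.const_mem _ c.2, H.zero.const_mem _ c.2⟩

/-- **Local liftability in the chart of `P`.** -/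
theorem crtLocal_own (H : NmBase M p A) (hDo : NmDvrOoStatement M p)
    (hDz : NmDvrZeroStatement M p) (hX : NmCrossStatement M p) (P : Place Qb (FLb (M * p)))
    (x x' : NmF (M * p) A)
    (hreg1 : ∀ Q, NmSpecOo M p A (nmCentre A P) Q → x ∈ Q.toValuationSubring)
    (hreg2 : ∀ Q', NmSpecZero M p H.setup.cop A (nmCentre A P) Q' → x' ∈ Q'.toValuationSubring)
    (hglue : ∀ Q Q', NmSpecOo M p A (nmCentre A P) Q →
      NmSpecZero M p H.setup.cop A (nmCentre A P) Q' →
      ∃ κ : kRes A, x - algebraMap (kRes A) (NmF (M * p) A) κ ∈ Q.toValuationSubring.nonunits ∧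
        x' - algebraMap (kRes A) (NmF (M * p) A) κ ∈ Q'.toValuationSubring.nonunits) :
    CrtLocal M p H.setup.cop A (nmY A P) P x x' := by
  have hcomp : ∀ {f : FLb (M * p)}, f ∈ nmChart (M * p) A (nmY A P) →
      f ∈ nmComp A P (H.deg P) := fun hf =>
    crt_chart_le_nmComp H P (nmY_mem_nmComp P (H.deg P)) hf
  by_cases h1 : NmIdealOo M p A P
  · by_cases h2 : NmIdealZero M p H.setup.cop A P
    · -- a node
      obtain ⟨hYj, X, Y, d, ψ, hXB, hYB, hdB, hψB, hrel, hd, hψ, hXm, hYm, ⟨hXoo, hXred⟩,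
        ⟨hY0, hYred⟩, Q, Q', hQ, hQ', ⟨hYoo, hYord⟩, ⟨hX0, hXord⟩⟩ := hX A H.setup P h1 h2
      rw [← hYj] at hXB hYB
      obtain ⟨κ, hκ1, hκ2⟩ := hglue Q Q' hQ hQ'
      obtain ⟨Q1, hQ1, hloc1⟩ := hDo A H.setup P h1
      obtain ⟨Q2, hQ2, hloc2⟩ := hDz A H.setup P h2
      have e1 : Q1 = Q := H.specOo_unique hDo hQ1 hQ
      have e2 : Q2 = Q' := H.specZero_unique hDz hQ2 hQ'
      subst e1 e2
      obtain ⟨f1, s1, hf1, hs1, hf1B, hs1B, hs1m, hfs1⟩ := hloc1 _ (crt_div_mem Q1 hYord hκ1)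
      obtain ⟨f2, s2, hf2, hs2, hf2B, hs2B, hs2m, hfs2⟩ := hloc2 _ (crt_div_mem Q2 hXord hκ2)
      obtain ⟨c, rfl⟩ := IsLocalRing.residue_surjective κ
      have hY1 : nmRedOo (M * p) A ⟨Y, hYoo⟩ ≠ 0 := crt_ne_zero_of_ord_one Q1 hYord
      have hX2 : nmRed0 M p H.setup.cop A ⟨X, hX0⟩ ≠ 0 := crt_ne_zero_of_ord_one Q2 hXord
      -- the elements of `O₂`
      set cT : nmO2 M p H.setup.cop A := ⟨_, crt_const_mem_O2 H c⟩ with hcT
      set XT : nmO2 M p H.setup.cop A := ⟨X, crt_ownChart_le_O2 H P hXB⟩ with hXT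
      set YT : nmO2 M p H.setup.cop A := ⟨Y, crt_ownChart_le_O2 H P hYB⟩ with hYT
      set f1T : nmO2 M p H.setup.cop A := ⟨f1, crt_ownChart_le_O2 H P hf1B⟩ with hf1T
      set s1T : nmO2 M p H.setup.cop A := ⟨s1, crt_ownChart_le_O2 H P hs1B⟩ with hs1T
      set f2T : nmO2 M p H.setup.cop A := ⟨f2, crt_ownChart_le_O2 H P hf2B⟩ with hf2T
      set s2T : nmO2 M p H.setup.cop A := ⟨s2, crt_ownChart_le_O2 H P hs2B⟩ with hs2T
      have r1c : nmR1 M p H.setup.cop A cT =
          algebraMap (kRes A) (NmF (M * p) A) (IsLocalRing.residue A c) := crt_nmR1_const H c _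
      have r2c : nmR2 M p H.setup.cop A cT =
          algebraMap (kRes A) (NmF (M * p) A) (IsLocalRing.residue A c) := crt_nmR2_const H c _
      have r1X : nmR1 M p H.setup.cop A XT = 0 := hXred
      have r2Y : nmR2 M p H.setup.cop A YT = 0 := hYred
      have r1Y : nmR1 M p H.setup.cop A YT ≠ 0 := hY1
      have r2X : nmR2 M p H.setup.cop A XT ≠ 0 := hX2
      have r1f1 : nmR1 M p H.setup.cop A f1T =
          (x - algebraMap (kRes A) (NmF (M * p) A) (IsLocalRing.residue A c)) /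
            nmR1 M p H.setup.cop A YT * nmR1 M p H.setup.cop A s1T := hfs1
      have r2f2 : nmR2 M p H.setup.cop A f2T =
          (x' - algebraMap (kRes A) (NmF (M * p) A) (IsLocalRing.residue A c)) /
            nmR2 M p H.setup.cop A XT * nmR2 M p H.setup.cop A s2T := hfs2
      refine ⟨s1T * s2T, cT * s1T * s2T + YT * f1T * s2T + XT * f2T * s1T, ?_, ?_, ?_, ?_, ?_⟩
      · exact (nmChart (M * p) A _).mul_mem hs1B hs2B
      · refine (nmChart (M * p) A _).add_mem ((nmChart (M * p) A _).add_mem ?_ ?_) ?_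
        · exact (nmChart (M * p) A _).mul_mem ((nmChart (M * p) A _).mul_mem
            (algebraMap_mem_nmChart A _ c.2) hs1B) hs2B
        · exact (nmChart (M * p) A _).mul_mem ((nmChart (M * p) A _).mul_mem hYB hf1B) hs2B
        · exact (nmChart (M * p) A _).mul_mem ((nmChart (M * p) A _).mul_mem hXB hf2B) hs1B
      · exact crt_mul_not_mem_nmMax H P (hcomp hs1B) (hcomp hs2B) hs1m hs2m
      · simp only [map_add, map_mul, r1c, r1X, r1f1, zero_mul, add_zero]
        field_simp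
        ring
      · simp only [map_add, map_mul, r2c, r2Y, r2f2, zero_mul, add_zero]
        field_simp
        ring
    · -- a smooth point of `C_∞`
      obtain ⟨Q1, hQ1, hloc1⟩ := hDo A H.setup P h1
      obtain ⟨f1, s1, hf1, hs1, hf1B, hs1B, hs1m, hfs1⟩ := hloc1 x (hreg1 Q1 hQ1)
      unfold NmIdealZero at h2
      push Not at h2
      obtain ⟨t, htB, ht0, htred, htm⟩ := h2
      set f1T : nmO2 M p H.setup.cop A := ⟨f1, crt_ownChart_le_O2 H P hf1B⟩ with hf1T
      set s1T : nmO2 M p H.setup.cop A := ⟨s1, crt_ownChart_le_O2 H P hs1B⟩ with hs1T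
      set tT : nmO2 M p H.setup.cop A := ⟨t, crt_ownChart_le_O2 H P htB⟩ with htT
      have r2t : nmR2 M p H.setup.cop A tT = 0 := htred
      have r1f1 : nmR1 M p H.setup.cop A f1T = x * nmR1 M p H.setup.cop A s1T := hfs1
      refine ⟨s1T * tT, f1T * tT, ?_, ?_, ?_, ?_, ?_⟩
      · exact (nmChart (M * p) A _).mul_mem hs1B htB
      · exact (nmChart (M * p) A _).mul_mem hf1B htB
      · exact crt_mul_not_mem_nmMax H P (hcomp hs1B) (hcomp htB) hs1m htm
      · simp only [map_mul, r1f1]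
        ring
      · simp only [map_mul, r2t, mul_zero, zero_mul]
  · by_cases h2 : NmIdealZero M p H.setup.cop A P
    · -- a smooth point of `C_0`
      obtain ⟨Q2, hQ2, hloc2⟩ := hDz A H.setup P h2
      obtain ⟨f2, s2, hf2, hs2, hf2B, hs2B, hs2m, hfs2⟩ := hloc2 x' (hreg2 Q2 hQ2)
      unfold NmIdealOo at h1
      push Not at h1
      obtain ⟨t, htB, ht0, htred, htm⟩ := h1
      set f2T : nmO2 M p H.setup.cop A := ⟨f2, crt_ownChart_le_O2 H P hf2B⟩ with hf2T
      set s2T : nmO2 M p H.setup.cop A := ⟨s2, crt_ownChart_le_O2 H P hs2B⟩ with hs2T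
      set tT : nmO2 M p H.setup.cop A := ⟨t, crt_ownChart_le_O2 H P htB⟩ with htT
      have r1t : nmR1 M p H.setup.cop A tT = 0 := htred
      have r2f2 : nmR2 M p H.setup.cop A f2T = x' * nmR2 M p H.setup.cop A s2T := hfs2
      refine ⟨s2T * tT, f2T * tT, ?_, ?_, ?_, ?_, ?_⟩
      · exact (nmChart (M * p) A _).mul_mem hs2B htB
      · exact (nmChart (M * p) A _).mul_mem hf2B htB
      · exact crt_mul_not_mem_nmMax H P (hcomp hs2B) (hcomp htB) hs2m htm
      · simp only [map_mul, r1t, mul_zero, zero_mul]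
      · simp only [map_mul, r2f2]
        ring
    · -- the centre lies on no component
      unfold NmIdealOo at h1
      unfold NmIdealZero at h2
      push Not at h1 h2
      obtain ⟨t1, ht1B, ht1V, ht1red, ht1m⟩ := h1
      obtain ⟨t2, ht2B, ht2V, ht2red, ht2m⟩ := h2
      set t1T : nmO2 M p H.setup.cop A := ⟨t1, crt_ownChart_le_O2 H P ht1B⟩ with ht1T
      set t2T : nmO2 M p H.setup.cop A := ⟨t2, crt_ownChart_le_O2 H P ht2B⟩ with ht2T
      have r1t : nmR1 M p H.setup.cop A t1T = 0 := ht1red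
      have r2t : nmR2 M p H.setup.cop A t2T = 0 := ht2red
      refine ⟨t1T * t2T, 0, ?_, ?_, ?_, ?_, ?_⟩
      · exact (nmChart (M * p) A _).mul_mem ht1B ht2B
      · exact (nmChart (M * p) A _).zero_mem
      · exact crt_mul_not_mem_nmMax H P (hcomp ht1B) (hcomp ht2B) ht1m ht2m
      · simp only [map_mul, map_zero, r1t, zero_mul]
      · simp only [map_mul, map_zero, r2t, mul_zero, zero_mul]

/-- `j ≠ 0` -/
theorem nmJ_ne_zero (H : NmBase M p A) : nmJ (M * p) ≠ 0 := by
  intro h0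
  have h1 : (nmJ (M * p))⁻¹ * nmJ (M * p) = 0 := by rw [h0, mul_zero]
  -- `j⁻¹` has a reduction, and `j` is not `0` in `V_∞` because `red j ≠ 0`
  have h2 := nm_jBarD_red (M * p) 1 (one_dvd _) A
  have h3 : (⟨Fermat.Agent.H23.jBarD (M * p) 1 (one_dvd _), nm_jBarD_mem (M * p) 1 (one_dvd _) A⟩ :
      gaussOBar (M * p) A) = 0 := Subtype.ext h0
  rw [h3, map_zero] at h2
  exact nm_qExpand_jq_ne_zero _ 1 h2.symm

/-- **Transfer of local liftability to the chart `y`** (`y(P) ∈ A`). -/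
theorem crtLocal_chart (H : NmBase M p A) (P : Place Qb (FLb (M * p))) {y : FLb (M * p)}
    (hy : y = nmJ (M * p) ∨ y = (nmJ (M * p))⁻¹) (hyP : y ∈ nmInt A P)
    (x x' : NmF (M * p) A) (hloc : CrtLocal M p H.setup.cop A (nmY A P) P x x') :
    CrtLocal M p H.setup.cop A y P x x' := by
  classical
  by_cases e : nmY A P = y
  · rw [← e]
    exact hloc
  -- then `y = j⁻¹` and the chart of `P` is `j`
  have hj : nmJ (M * p) ∈ nmInt A P := by
    by_contra hj
    apply e
    rcases hy with rfl | rfl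
    · exact absurd hyP hj
    · unfold nmY
      rw [if_neg hj]
  have hYP : nmY A P = nmJ (M * p) := by
    unfold nmY
    rw [if_pos hj]
  have hyinv : y = (nmJ (M * p))⁻¹ := by
    rcases hy with rfl | rfl
    · exact absurd hYP e
    · rfl
  subst hyinv
  rw [hYP] at hloc
  obtain ⟨s, f, hsB, hfB, hsm, hr1, hr2⟩ := hloc
  have hj0 : nmJ (M * p) ≠ 0 := nmJ_ne_zero H
  obtain ⟨k1, hk1⟩ := crt_chart_overlap A (nmJ (M * p)) hj0 hsB
  obtain ⟨k2, hk2⟩ := crt_chart_overlap A (nmJ (M * p)) hj0 hfB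
  -- `w = j⁻ᵏ`
  have hwO : (nmJ (M * p))⁻¹ ^ (max k1 k2) ∈ nmO2 M p H.setup.cop A :=
    pow_mem (crt_chart_le_O2 H (Or.inr rfl) (self_mem_nmChart A _)) _
  set w : nmO2 M p H.setup.cop A := ⟨_, hwO⟩ with hw
  -- `j⁻¹(P)` is a unit of `A`
  have hjinv_nm : (nmJ (M * p))⁻¹ ∉ nmMax A P := by
    rw [← mem_nonunits_nmComp_iff A P (H.deg P), ValuationSubring.mem_nonunits_iff, not_lt,
      map_inv₀]
    have h1 : (nmComp A P (H.deg P)).valuation (nmJ (M * p)) ≤ 1 :=
      (ValuationSubring.valuation_le_one_iff _ _).2 hj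
    have h0 : (nmComp A P (H.deg P)).valuation (nmJ (M * p)) ≠ 0 := by
      rw [Ne, Valuation.zero_iff]
      exact hj0
    exact (one_le_inv₀ (zero_lt_iff.2 h0)).2 h1
  have hs_comp : (s : FLb (M * p)) ∈ nmComp A P (H.deg P) := crt_chart_le_nmComp H P hj hsB
  refine ⟨w * s, w * f, hk1 _ (le_max_left _ _), hk2 _ (le_max_right _ _), ?_, ?_, ?_⟩
  · exact crt_mul_not_mem_nmMax H P (pow_mem hyP _) hs_comp
      (crt_pow_not_mem_nmMax H P hyP hjinv_nm _) hsm
  · rw [map_mul, map_mul, hr1]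
    ring
  · rw [map_mul, map_mul, hr2]
    ring

end Local

end Fermat.Agent.H26.ORD
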