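import Fermat.Agent.H84.ORD.NodalSpecFinal

/-!
# P-ORD, block B1-LIFT, [CRT] part 0 (helper26) : overlap of the two charts

`B̄(y) = nmChart N A y` is the integral closure of `A[y]` in `F = FLb N`.

* `crt_poly_overlap` : for `a ∈ A[y]` there is `k` with `y⁻ⁿ a ∈ A[y⁻¹]` for all `n ≥ k`;
* `crt_chart_overlap` : for `b ∈ B̄(y)` there is `k` with `y⁻ⁿ b ∈ B̄(y⁻¹)` for all `n ≥ k`.
-/

set_option autoImplicit false
set_option linter.unusedSectionVars false
set_option linter.style.haveILetI false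

noncomputable section

open AlgebraicCurve ModularCurve Polynomial

namespace Fermat.Agent.H26.ORD

open Fermat.Agent.H72.FF Fermat.Agent.H18.ORD Fermat.Agent.H66 Fermat.Agent.H84.ORD

section Overlap

variable {N : ℕ} (A : ValuationSubring Qb)

theorem crt_inv_pow_mem_nmPoly (y : FLb N) (n : ℕ) : y⁻¹ ^ n ∈ nmPoly N A y⁻¹ :=
  (nmPoly N A y⁻¹).pow_mem (self_mem_nmPoly A y⁻¹) n

/-- for `a ∈ A[y]` : `y⁻ⁿ a ∈ A[y⁻¹]` for `n` large -/
theorem crt_poly_overlap (y : FLb N) (hy : y ≠ 0) {a : FLb N} (ha : a ∈ nmPoly N A y) :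
    ∃ k : ℕ, ∀ n, k ≤ n → y⁻¹ ^ n * a ∈ nmPoly N A y⁻¹ := by
  unfold nmPoly at ha
  induction ha using Subring.closure_induction with
  | mem x hx =>
    rcases hx with ⟨c, hc, rfl⟩ | hx
    · exact ⟨0, fun n _ => (nmPoly N A y⁻¹).mul_mem (crt_inv_pow_mem_nmPoly A y n)
        (algebraMap_mem_nmPoly A y⁻¹ hc)⟩
    · rw [Set.mem_singleton_iff] at hx
      subst hx
      refine ⟨1, fun n hn => ?_⟩
      obtain ⟨m, rfl⟩ : ∃ m, n = m + 1 := ⟨n - 1, by omega⟩
      rw [pow_succ, mul_assoc, inv_mul_cancel₀ hy, mul_one]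
      exact crt_inv_pow_mem_nmPoly A x m
  | zero => exact ⟨0, fun n _ => by rw [mul_zero]; exact (nmPoly N A y⁻¹).zero_mem⟩
  | one => exact ⟨0, fun n _ => by rw [mul_one]; exact crt_inv_pow_mem_nmPoly A y n⟩
  | add a b _ _ iha ihb =>
    obtain ⟨k1, h1⟩ := iha
    obtain ⟨k2, h2⟩ := ihb
    refine ⟨max k1 k2, fun n hn => ?_⟩
    rw [mul_add]
    exact (nmPoly N A y⁻¹).add_mem (h1 n (le_trans (le_max_left _ _) hn))
      (h2 n (le_trans (le_max_right _ _) hn))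
  | neg a _ iha =>
    obtain ⟨k1, h1⟩ := iha
    refine ⟨k1, fun n hn => ?_⟩
    rw [mul_neg]
    exact (nmPoly N A y⁻¹).neg_mem (h1 n hn)
  | mul a b _ _ iha ihb =>
    obtain ⟨k1, h1⟩ := iha
    obtain ⟨k2, h2⟩ := ihb
    refine ⟨k1 + k2, fun n hn => ?_⟩
    obtain ⟨m, rfl⟩ : ∃ m, n = k1 + m := ⟨n - k1, by omega⟩
    have e : y⁻¹ ^ (k1 + m) * (a * b) = (y⁻¹ ^ k1 * a) * (y⁻¹ ^ m * b) := by
      rw [pow_add]; ring
    rw [e]
    exact (nmPoly N A y⁻¹).mul_mem (h1 k1 le_rfl) (h2 m (by omega))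

/-- a monic polynomial over `F` with coefficients in a subring `T` and root `b` : `b` is integral
over `T` -/
theorem crt_isIntegralElem_of_coeffs {F : Type*} [Field F] (T : Subring F) (q : F[X])
    (hq : q.Monic) (hc : ∀ i, q.coeff i ∈ T) (b : F) (hb : q.eval b = 0) :
    T.subtype.IsIntegralElem b := by
  have hsub : (↑q.coeffs : Set F) ⊆ T := by
    intro c hcm
    rw [Finset.mem_coe, Polynomial.mem_coeffs_iff] at hcm
    obtain ⟨n, -, rfl⟩ := hcm
    exact hc n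
  refine ⟨q.toSubring T hsub, (Polynomial.monic_toSubring q T hsub).mpr hq, ?_⟩
  rw [Polynomial.eval₂_eq_eval_map, Polynomial.map_toSubring]
  exact hb

/-- for `b ∈ B̄(y)` : `y⁻ⁿ b ∈ B̄(y⁻¹)` for `n` large -/
theorem crt_chart_overlap (y : FLb N) (hy : y ≠ 0) {b : FLb N} (hb : b ∈ nmChart N A y) :
    ∃ k : ℕ, ∀ n, k ≤ n → y⁻¹ ^ n * b ∈ nmChart N A y⁻¹ := by
  rw [mem_nmChart_iff] at hb
  obtain ⟨P, hPm, hP0⟩ := hb
  -- a uniform exponent for the coefficients
  have hex : ∀ i : ℕ, ∃ k : ℕ, ∀ n, k ≤ n →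
      y⁻¹ ^ n * ((P.coeff i : ↥(nmPoly N A y)) : FLb N) ∈ nmPoly N A y⁻¹ := fun i =>
    crt_poly_overlap A y hy (P.coeff i).2
  choose κ hκ using hex
  refine ⟨(Finset.range (P.natDegree + 1)).sup κ, fun n hn => ?_⟩
  rw [mem_nmChart_iff]
  have hκn : ∀ i ∈ Finset.range (P.natDegree + 1), κ i ≤ n := fun i hi =>
    le_trans (Finset.le_sup hi) hn
  set pF : (FLb N)[X] := P.map (nmPoly N A y).subtype with hpF
  have hpFm : pF.Monic := hPm.map _
  have hpF0 : pF.eval b = 0 := by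
    rw [hpF, ← Polynomial.eval₂_eq_eval_map]
    exact hP0
  have hdeg : pF.natDegree = P.natDegree :=
    Polynomial.natDegree_map_eq_of_injective (Subring.subtype_injective _) P
  refine crt_isIntegralElem_of_coeffs (nmPoly N A y⁻¹) (Polynomial.scaleRoots pF (y⁻¹ ^ n))
    ((Polynomial.monic_scaleRoots_iff _).mpr hpFm) ?_ (y⁻¹ ^ n * b) ?_
  · intro i
    rw [Polynomial.coeff_scaleRoots, hdeg, hpF, Polynomial.coeff_map]
    rcases lt_trichotomy i P.natDegree with hi | hi | hi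
    · -- `i < deg`
      have h1 := hκ i (n * (P.natDegree - i)) (le_trans (hκn i (Finset.mem_range.mpr (by omega)))
        (Nat.le_mul_of_pos_right n (by omega)))
      rw [← pow_mul, mul_comm]
      exact h1
    · rw [hi, Nat.sub_self, pow_zero, mul_one]
      have : P.coeff P.natDegree = 1 := hPm
      rw [this]
      exact (nmPoly N A y⁻¹).one_mem
    · rw [Polynomial.coeff_eq_zero_of_natDegree_lt hi, map_zero, zero_mul]
      exact (nmPoly N A y⁻¹).zero_mem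
  · have h := Polynomial.scaleRoots_eval₂_mul (RingHom.id (FLb N)) (p := pF) (r := b)
      (s := y⁻¹ ^ n)
    rw [Polynomial.eval₂_id, Polynomial.eval₂_id, RingHom.id_apply, hpF0, mul_zero] at h
    exact h

end Overlap

end Fermat.Agent.H26.ORD
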