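import Fermat.Agent.H94.ORD.JacGlue
import Fermat.Agent.H99.FF.RootApproxFinal
import Fermat.Agent.H26.FF.ApproxCalc

/-!
# P-ORD row 1140 (ORD-GB-C3, C-ROOT), helper26

`rootApproxC : TaylorRedC → RootApproxC`: on ONE component of a nodal reduction (helper94's
`CompSetup`), the coordinate of a zero of a family `F(s) = ∑ κ_j(s) y_j` whose reduction vanishes
simply at the smooth point `Q` is approximable.

It is the port of helper99's `Fermat.Agent.H99.FF.rootApprox` (P-FF row 770) to the one-component
setting; the generic lemmas `simple_zero_family`, `family_equation`, `inv_mem_of_isUnit` of that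
file and helper90's Hensel root statement `Fermat.Agent.H99.FF.rootFixed` are used as they are,
the value lemma `IsUnrCoordC.value_nonunit` is helper94's (`Fermat.Agent.H94.ORD.JacGlue`).
-/

set_option autoImplicit false
set_option synthInstance.maxHeartbeats 400000
set_option maxHeartbeats 1600000
set_option linter.style.haveILetI false
set_option linter.unusedSectionVars false

noncomputable section

open AlgebraicCurve ModularCurve Fermat.Agent.H27.ESD

namespace Fermat.Agent.H26.ORD

open Fermat.Agent.H10.FF Fermat.Agent.H72.FF Fermat.Agent.H18.ORD Fermat.Agent.H92.ORD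
  Fermat.Agent.H94.FF Fermat.Agent.H94.ORD

section Main

variable {N p : ℕ} {A : ValuationSubring Qb} {Fk : Type} [Field Fk] [Algebra (kRes A) Fk]
  {X : Type} {V : Subring (FLb N)} {red : V →+* Fk} {r : Place Qb (FLb N) → X}
  {pt : Place (kRes A) Fk → X} {smooth : Place (kRes A) Fk → Prop}

/-- the underlying function of a `κ`-combination in `V` -/
theorem coe_sum_constC_mul (hS : CompSetup N p A V red r pt smooth) {d : ℕ} (κ : Fin d → A)
    (y : Fin d → V) :
    (((∑ j, constC hS (κ j) * y j : V)) : FLb N)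
      = ∑ j, algebraMap Qb (FLb N) (κ j : Qb) * (y j : FLb N) := by
  rw [AddSubmonoidClass.coe_finsetSum]
  rfl

/-- the reduction of a `κ`-combination -/
theorem red_sum_constC_mul (hS : CompSetup N p A V red r pt smooth) {d : ℕ} (κ : Fin d → A)
    (y : Fin d → V) :
    red (∑ j, constC hS (κ j) * y j)
      = ∑ j, algebraMap (kRes A) Fk (IsLocalRing.residue A (κ j)) * red (y j) := by
  rw [map_sum]
  refine Finset.sum_congr rfl fun j _ => ?_
  rw [map_mul, red_constC]

end Main

/-- **[C-ROOT]**, with the Taylor lemma and the Hensel root statement as hypotheses. -/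
theorem rootApproxC_of (hT : TaylorRedC) (hRoot : RootFixedStatement) : RootApproxC := by
  intro N ℓ A Fk instF instA X V red r pt smooth hS Q hsm P t ht d y hyU hynp S instS n x hx κ hκ
    hsimple pts τ hpts hτ hF
  have hℓ := hS.prime
  have hA := hS.liesOver
  have hxA : ∀ s i, x s i ∈ A := fun s i => ValuationSubring.nonunits_subset (hx s i)
  -- (1) the coordinate is a nonunit
  have hτnu : ∀ s, τ s ∈ A.nonunits := fun s =>
    IsUnrCoordC.value_nonunit hS hsm ht (pts s) (hpts s) (τ s) (hτ s)
  have hτA : ∀ s, τ s ∈ A := fun s => ValuationSubring.nonunits_subset (hτnu s)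
  refine hRoot ℓ A hℓ hA S n x hx τ hτnu fun M => ?_
  -- (2) a uniform exponent
  obtain ⟨M0, hM0⟩ := Fermat.Agent.H26.FF.exists_pow_eq_prime_pow_mul hℓ hA τ hτnu M
  -- (3) Taylor expansions of order `M0 + 2`
  have hTay := fun j =>
    hT N ℓ A Fk X V red r pt smooth hS Q hsm P t ht (y j) (hyU j) (hynp j) (M0 + 2)
  choose c hcR hcval hcred using hTay
  -- the reduction argument
  have hkey : ∀ s, (∑ j, IsLocalRing.residue A (κ j s) * IsLocalRing.residue A (c j 0)) = 0 ∧
      (∑ j, IsLocalRing.residue A (κ j s) * IsLocalRing.residue A (c j 1)) ≠ 0 := by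
    intro s
    have hE := hsimple s
    rw [red_sum_constC_mul] at hE
    exact Fermat.Agent.H99.FF.simple_zero_family Q ht.simple d M0
      (fun j => IsLocalRing.residue A (κ j s))
      (fun j m => IsLocalRing.residue A (c j m)) (fun j => red (y j))
      (fun j => hcred j) hE
  have hres : ∀ (m : Fin (M0 + 2)) (s : S), IsLocalRing.residue A (∑ j, κ j s * c j m)
      = ∑ j, IsLocalRing.residue A (κ j s) * IsLocalRing.residue A (c j m) := by
    intro m s
    simp only [map_sum, map_mul]
  have hcoe : ∀ (m : Fin (M0 + 2)) (s : S), (((∑ j, κ j s * c j m : A)) : Qb)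
      = ∑ j, (κ j s : Qb) * ((c j m : A) : Qb) := by
    intro m s
    rw [AddSubmonoidClass.coe_finsetSum]
    rfl
  refine ⟨M0, fun m s => ∑ j, (κ j s : Qb) * ((c j m : A) : Qb), ?_, ?_, ?_, ?_, ?_⟩
  · -- approximability of the coefficients
    intro m
    exact Fermat.Agent.H26.FF.isApprox_sum_univ fun j =>
      Fermat.Agent.H26.FF.isApprox_mul hxA (hκ j)
        (Fermat.Agent.H26.FF.isApprox_const (hcR j m))
  · intro m s
    exact sum_mem fun j _ => mul_mem (κ j s).2 (c j m).2
  · -- `φ 0` has values in the maximal ideal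
    intro s
    have h0 : IsLocalRing.residue A (∑ j, κ j s * c j 0) = 0 := (hres 0 s).trans (hkey s).1
    have hnu : ¬ IsUnit (∑ j, κ j s * c j 0 : A) := (hS.comp.hker _).mp h0
    show (∑ j, (κ j s : Qb) * ((c j 0 : A) : Qb)) ∈ A.nonunits
    rw [← hcoe 0 s, ValuationSubring.mem_nonunits_iff_exists_mem_maximalIdeal]
    exact ⟨(∑ j, κ j s * c j 0 : A).2, (IsLocalRing.mem_maximalIdeal _).mpr hnu⟩
  · -- `φ 1` has unit values
    intro s
    have h1 : IsLocalRing.residue A (∑ j, κ j s * c j 1) ≠ 0 := by
      rw [hres 1 s]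
      exact (hkey s).2
    have hu : IsUnit (∑ j, κ j s * c j 1 : A) := by
      by_contra hnu
      exact h1 ((hS.comp.hker _).mpr hnu)
    have := Fermat.Agent.H99.FF.inv_mem_of_isUnit hu
    rw [hcoe 1 s] at this
    exact this
  · -- the equation
    intro s
    -- values of the `y j` at `pts s`
    have hbex : ∀ j, ∃ b : Qb, HasVal (pts s) (y j : FLb N) b := fun j =>
      exists_hasVal (hS.degL (pts s)) (hynp j (pts s) (hpts s))
    choose b hb using hbex
    have hval : HasVal (pts s) (∑ j, algebraMap Qb (FLb N) (κ j s : Qb) * (y j : FLb N))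
        (∑ j, (κ j s : Qb) * b j) :=
      hasVal_sum Finset.univ _ _ fun j _ => HasVal.const_mul _ (hb j)
    have hF' : HasVal (pts s) (∑ j, algebraMap Qb (FLb N) (κ j s : Qb) * (y j : FLb N)) 0 := by
      have := hF s
      rw [coe_sum_constC_mul] at this
      exact this
    have hzero : ∑ j, (κ j s : Qb) * b j = 0 := hval.unique hF'
    have hTj : ∀ j, ∃ e ∈ A, b j - ∑ m : Fin (M0 + 2), ((c j m : A) : Qb) * τ s ^ (m : ℕ)
        = τ s ^ (M0 + 2) * e := fun j =>
      hcval j (pts s) (hpts s) (τ s) (b j) (hτ s) (hb j)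
    choose e heA he using hTj
    obtain ⟨e0, he0A, he0⟩ := hM0 s
    refine ⟨-(e0 * τ s ^ 2 * ∑ j, (κ j s : Qb) * e j), ?_, ?_⟩
    · refine neg_mem (mul_mem (mul_mem he0A (pow_mem (hτA s) 2)) ?_)
      exact sum_mem fun j _ => mul_mem (κ j s).2 (heA j)
    · exact Fermat.Agent.H99.FF.family_equation d M0 (fun j => (κ j s : Qb))
        (fun j m => ((c j m : A) : Qb)) b e (τ s) e0 ((ℓ : Qb) ^ M) he hzero he0

/-- **[C-ROOT]** (`Fermat.Agent.H94.ORD.RootApproxC`), with the one-component Taylor lemma
`TaylorRedC` as only hypothesis. -/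
theorem rootApproxC (hT : TaylorRedC) : RootApproxC :=
  rootApproxC_of hT Fermat.Agent.H99.FF.rootFixed

end Fermat.Agent.H26.ORD
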